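import Fermat.Agent.S17.El.X.Root

/-!
# S17/El/X: the upper bound   (WP EL-XF)

`ξ = x'(R)`, `y = yZ (gridPt t) (eP P)`.  `Nm_yZ_eq` evaluated at `ξ`:  `(ξ - x'(P)) ∑_j (gg … j)(P) ξ^j = (N y)(ξ)`;
`Nm_eval`: `= zprod oo (x' - ξ) (fun R' => y(R'))`; `val_yZ`: `y(R') = ∑_{ab} (t ab : K) pl P R' a b`, so
`v(y(R')) ≤ γ₁ D(P,R')` (`MC.sum_le`, `MC.natCast_le`, `MC.exists_sup` over `Fin (n'+1)`, `C.le_D`).
Write the `zprod`s as products over a list of zeros (`exists_zeros`, `zprod_eq_prod`; `dg (x' - ξ) = n'`: `Cv.dg_sub_const`), `map_prod`,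
`Finset.prod_le_prod`; `γ = γ₁ ^ n'` (`MC.pow`).
-/

set_option autoImplicit false

open AlgebraicCurve

namespace Fermat.Agent.S17.El.XX

variable {K F : Type*} [Field K] [Field F] [Algebra K F] [IsAlgClosed K] [CharZero K]
  [S27.IsFF K F]

variable {C : Cv K F} {x' : F} {n' : ℕ} (D : NData C x' n')

theorem exists_upper :
    ∃ γ : MC K, ∀ (v : AbsoluteValue K ℝ) (P : Place K F), P ≠ C.oo → ∀ (ξ : K)
      (t : Fin C.r × Fin C.r → Fin (n' + 1)),
      v (ξ - S27.val P x') *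
          v (∑ j ∈ Finset.range C.κ, S27.val P (gg C D.Φ x' (gridPt C t) j) * ξ ^ j) ≤
        γ.val v * zprod C.oo (x' - algebraMap K F ξ) (fun R' => C.D v P R') := by
  classical
  obtain ⟨γn, hγn⟩ := MC.exists_sup (fun i : Fin (n' + 1) => (MC.ofNat (i : ℕ) : MC K))
  set γ₁ : MC K := (MC.ofNat (Finset.univ : Finset (Fin C.r × Fin C.r)).card).mul γn with hγ₁
  refine ⟨γ₁.pow n', fun v P hP ξ t => ?_⟩
  set y : F := yZ C (gridPt C t) (eP C P) with hy
  have hyReg : y ∈ Reg C.oo := (mem_V_iff.mp (yZ_mem (gridPt C t) (eP C P))).1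
  -- (1), (2)
  have h1 : (ξ - S27.val P x') *
      (∑ j ∈ Finset.range C.κ, S27.val P (gg C D.Φ x' (gridPt C t) j) * ξ ^ j) =
      zprod C.oo (x' - algebraMap K F ξ) (fun R' => S27.val R' y) := by
    rw [← Nm_eval C D.hx' D.hn' D.hd hyReg ξ, hy, Nm_yZ_eq D (gridPt C t) hP]
    simp [Polynomial.eval_finsetSum]
  -- (3)
  have h3 : ∀ R' : Place K F, R' ≠ C.oo → v (S27.val R' y) ≤ γ₁.val v * C.D v P R' := by
    intro R' hR'
    rw [hy, val_yZ (gridPt C t) P hR']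
    refine le_trans (MC.sum_le _ _ v (B := γn.val v * C.D v P R')
      (mul_nonneg (MC.val_pos γn v).le (C.D_nonneg v P R')) fun ab _ => ?_) ?_
    · rw [map_mul]
      refine mul_le_mul ?_ (C.le_D v P R' _ _) (v.nonneg _) (MC.val_pos γn v).le
      exact le_trans (MC.natCast_le _ v) (hγn (t ab) v)
    · rw [← mul_assoc]
      exact mul_le_mul_of_nonneg_right (MC.val_mul_le _ _ v) (C.D_nonneg v P R')
  -- (4)
  have hdgx : dg C.oo x' = n' := by
    unfold dg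
    rw [D.hd]
    simp
  have hdg : dg C.oo (x' - algebraMap K F ξ) = n' := by
    rw [C.dg_sub_const (by rw [hdgx]; exact D.hn') ξ, hdgx]
  have hfReg : x' - algebraMap K F ξ ∈ Reg C.oo :=
    (Reg C.oo).sub_mem D.hx' ((Reg C.oo).algebraMap_mem ξ)
  have hf0 : x' - algebraMap K F ξ ≠ 0 := by
    intro h0
    rw [h0] at hdg
    have : dg C.oo (0 : F) = 0 := by
      unfold dg
      simp
    have := D.hn'
    omega
  obtain ⟨Z, hZ, hcard⟩ := exists_zeros hfReg hf0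
  rw [← map_mul, h1, zprod_eq_prod hfReg hf0 Z hZ hcard, zprod_eq_prod hfReg hf0 Z hZ hcard,
    map_prod]
  calc ∏ i, v (S27.val (Z i) y) ≤ ∏ i, (γ₁.val v * C.D v P (Z i)) :=
        Finset.prod_le_prod (fun i _ => v.nonneg _) fun i _ => h3 (Z i) (hZ i)
    _ = γ₁.val v ^ n' * ∏ i, C.D v P (Z i) := by
        rw [Finset.prod_mul_distrib, Finset.prod_const, Finset.card_univ, Fintype.card_fin]
        congr 2
    _ ≤ (γ₁.pow n').val v * ∏ i, C.D v P (Z i) :=
        mul_le_mul_of_nonneg_right (MC.val_pow_le γ₁ n' v)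
          (Finset.prod_nonneg fun i _ => C.D_nonneg v P (Z i))

end Fermat.Agent.S17.El.XX
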