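import Fermat.Agent.S17.El.K1

/-!
# S17/El/X: definitions for (X)   (FROZEN; owner helper26)

Plan of EL-X (variant of the header of `El/X.lean`; NO polynomial ring over `A`, NO coefficient
extraction in `c`: the variables `c` are only evaluated on the finite grid `{0,…,n'}^(r×r)`).

`Z : Fin r → K` a vector ("coordinates of a point"), `c : Fin r × Fin r → K`.
* `yZ c Z = ∑_{a,b} c_ab (Z_a e_b - Z_b e_a) = ∑_b wK c Z b • e_b`;  for `Z = eP P` this is `y_c^P`.
* `wF c b = ∑_a (c_ab - c_ba) e_a ∈ L(κ·oo)`, so `(wF c b)(P) = wK c (eP P) b`.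
* `Φ j` = the polynomials of `Nm_poly` for the family `e`;  `Psi c i = Φ_i(wF c) ∈ L(κ n'·oo)`, with
  `(Psi c i)(P) = coeff_i N(y_c^P)`.
* `∑_{i ≤ κ} Psi c i x'^i = 0` in `F` (it vanishes at every affine place).
* `gg c j = ∑_{j < i ≤ κ} Psi c i x'^(i-j-1)` (synthetic division by `ξ - x'`), so
  `N(y_c^P) = (X - x'(P)) ∑_{j<κ} (gg c j)(P) X^j`, and `gg c j x'^(j+1) = - ∑_{i ≤ j} Psi c i x'^i`,
  which gives `gg c j ∈ L(n'(κ-1)·oo)`.
* `top k f = (f t^k)(oo)`: the "leading coefficient in degree `k`" of `f ∈ L(k·oo)`.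
-/

set_option autoImplicit false

open AlgebraicCurve

namespace Fermat.Agent.S17.El.XX

variable {K F : Type*} [Field K] [Field F] [Algebra K F]

variable (C : Cv K F)

/-- coordinates of `y_c^Z` in the basis `e`. -/
noncomputable def wK (c : Fin C.r × Fin C.r → K) (Z : Fin C.r → K) (b : Fin C.r) : K :=
  ∑ a, (c (a, b) - c (b, a)) * Z a

/-- `y_c^Z = ∑_{a,b} c_ab (Z_a e_b - Z_b e_a)`. -/
noncomputable def yZ (c : Fin C.r × Fin C.r → K) (Z : Fin C.r → K) : F :=
  ∑ b, wK C c Z b • C.e b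

/-- the function `P ↦ wK c (e(P)) b`. -/
noncomputable def wF (c : Fin C.r × Fin C.r → K) (b : Fin C.r) : F :=
  ∑ a, (c (a, b) - c (b, a)) • C.e a

/-- the function `P ↦ coeff_i N(y_c^P)`. -/
noncomputable def Psi (Φ : ℕ → MvPolynomial (Fin C.r) K) (c : Fin C.r × Fin C.r → K) (i : ℕ) : F :=
  MvPolynomial.aeval (wF C c) (Φ i)

/-- the coefficients of the quotient of `∑ Psi c i ξ^i` by `ξ - x'`. -/
noncomputable def gg (Φ : ℕ → MvPolynomial (Fin C.r) K) (x' : F) (c : Fin C.r × Fin C.r → K)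
    (j : ℕ) : F :=
  ∑ i ∈ Finset.Ioc j C.κ, Psi C Φ c i * x' ^ (i - j - 1)

/-- leading coefficient in degree `k`. -/
noncomputable def top (k : ℕ) (f : F) : K := S27.val C.oo (f * C.t ^ k)

/-- evaluation vector at a place. -/
noncomputable def eP (P : Place K F) (a : Fin C.r) : K := S27.val P (C.e a)

/-- normalised evaluation vector at `oo`. -/
noncomputable def eoo (a : Fin C.r) : K := top C C.κ (C.e a)

/-- the grid point attached to `t`. -/
def gridPt {n' : ℕ} (t : Fin C.r × Fin C.r → Fin (n' + 1)) : Fin C.r × Fin C.r → K :=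
  fun ab => ((t ab : ℕ) : K)

/-- the data: `x'` and the polynomials describing its norm on `L(κ·oo)`. -/
structure NData (x' : F) (n' : ℕ) where
  hx' : x' ∈ Reg C.oo
  hn' : 0 < n'
  hd : C.oo.ord x' = -(n' : ℤ)
  Φ : ℕ → MvPolynomial (Fin C.r) K
  hom : ∀ j, (Φ j).IsHomogeneous n'
  spec : ∀ (w : Fin C.r → K) (j : ℕ),
    (Nm K x' (∑ i, w i • C.e i)).coeff j = MvPolynomial.eval w (Φ j)

/-- functions of `c` which are polynomials of total degree `≤ n`. -/
def IsPolyC {I : Type*} (n : ℕ) (H : (I → K) → K) : Prop :=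
  ∃ Q : MvPolynomial I K, Q.totalDegree ≤ n ∧ ∀ c, H c = MvPolynomial.eval c Q

end Fermat.Agent.S17.El.XX
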