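import Fermat.Agent.S17.El.X.Defs

/-!
# S17/El/X: synthetic division; polynomial functions of `c` and the grid   (WP EL-XB)

Pure algebra (Mathlib only).
* `synth_div`: `T^i - s^i = (T - s) ∑_{j<i} T^j s^(i-1-j)` (`geom_sum₂_mul` / `Commute.geom_sum₂_mul`), exchange the sums
  (or: induction on `κ`; `Finset.sum_Ioc_succ_top`, `Finset.sum_range_succ`).
* `IsPolyC.exists_grid`: `MvPolynomial.eq_zero_of_eval_zero_at_prod_finset` (Combinatorial Nullstellensatz file) with
  `S i = image Nat.cast (range (n+1))`, `degreeOf_le_totalDegree`; `CharZero` gives `#S i = n + 1`.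
* `isPolyC_eval_wK`: `Q = bind₁ W (Φ)` / `aeval W Φ`, `W b = ∑_a (X (a,b) - X (b,a)) * C (Z a)` homogeneous of degree `1`
  (`IsHomogeneous.aeval`/`IsHomogeneous.eval₂`, `IsHomogeneous.totalDegree_le`); `eval c (aeval W Φ) = eval (eval c ∘ W) Φ`
  (`MvPolynomial.eval_bind₁`/`aeval_def`, `eval₂Hom`).
-/

set_option autoImplicit false

open Polynomial

namespace Fermat.Agent.S17.El.XX

theorem synth_div {R : Type*} [CommRing R] (a : ℕ → R) (s : R) (κ : ℕ) :
    (∑ i ∈ Finset.range (κ + 1), C (a i) * X ^ i : R[X]) =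
      (X - C s) * ∑ j ∈ Finset.range κ, C (∑ i ∈ Finset.Ioc j κ, a i * s ^ (i - j - 1)) * X ^ j
        + C (∑ i ∈ Finset.range (κ + 1), a i * s ^ i) := by
  induction κ with
  | zero => simp
  | succ κ ih =>
    rw [Finset.sum_range_succ, ih, Finset.sum_range_succ (fun i => a i * s ^ i) (κ + 1)]
    have h1 : ∑ j ∈ Finset.range (κ + 1),
        C (∑ i ∈ Finset.Ioc j (κ + 1), a i * s ^ (i - j - 1)) * X ^ j
        = ∑ j ∈ Finset.range κ, C (∑ i ∈ Finset.Ioc j κ, a i * s ^ (i - j - 1)) * X ^ j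
          + C (a (κ + 1)) * ∑ j ∈ Finset.range (κ + 1), (X : R[X]) ^ j * C s ^ (κ + 1 - 1 - j) := by
      have h2 : ∀ j ∈ Finset.range (κ + 1),
          C (∑ i ∈ Finset.Ioc j (κ + 1), a i * s ^ (i - j - 1)) * (X : R[X]) ^ j
          = C (∑ i ∈ Finset.Ioc j κ, a i * s ^ (i - j - 1)) * X ^ j
            + C (a (κ + 1)) * (X ^ j * C s ^ (κ + 1 - 1 - j)) := by
        intro j hj
        have hj' : j ≤ κ := Nat.lt_succ_iff.1 (Finset.mem_range.1 hj)
        rw [Finset.sum_Ioc_succ_top hj', C_add, C_mul, C_pow]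
        have : κ + 1 - j - 1 = κ + 1 - 1 - j := by omega
        rw [this]
        ring
      rw [Finset.sum_congr rfl h2, Finset.sum_add_distrib, Finset.sum_range_succ, Finset.mul_sum]
      simp
    have h3 := geom_sum₂_mul (X : R[X]) (C s) (κ + 1)
    rw [h1, C_add, C_mul, C_pow]
    linear_combination (- C (a (κ + 1))) * h3

/-- splitting a sum at `j`. -/
theorem sum_split {R : Type*} [CommRing R] (a : ℕ → R) (s : R) {j κ : ℕ} (hj : j ≤ κ) :
    ∑ i ∈ Finset.range (κ + 1), a i * s ^ i =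
      ∑ i ∈ Finset.range (j + 1), a i * s ^ i +
        (∑ i ∈ Finset.Ioc j κ, a i * s ^ (i - j - 1)) * s ^ (j + 1) := by
  induction κ, hj using Nat.le_induction with
  | base => simp
  | succ κ hκ ih =>
    rw [Finset.sum_range_succ, ih, Finset.sum_Ioc_succ_top hκ, add_mul, mul_assoc (a (κ + 1)),
      ← pow_add]
    have : κ + 1 - j - 1 + (j + 1) = κ + 1 := by omega
    rw [this]
    ring

variable {K : Type*} [Field K]

namespace IsPolyC

variable {I : Type*} {n : ℕ}

theorem add {H H' : (I → K) → K} (h : IsPolyC n H) (h' : IsPolyC n H') :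
    IsPolyC n (fun c => H c + H' c) := by
  obtain ⟨Q, hQ, hH⟩ := h
  obtain ⟨Q', hQ', hH'⟩ := h'
  exact ⟨Q + Q', (MvPolynomial.totalDegree_add _ _).trans (max_le hQ hQ'),
    fun c => by simp only [hH, hH', map_add]⟩

theorem const_mul {H : (I → K) → K} (a : K) (h : IsPolyC n H) : IsPolyC n (fun c => a * H c) := by
  obtain ⟨Q, hQ, hH⟩ := h
  exact ⟨a • Q, (MvPolynomial.totalDegree_smul_le _ _).trans hQ,
    fun c => by simp only [hH, MvPolynomial.smul_eval]⟩

theorem mul_const {H : (I → K) → K} (h : IsPolyC n H) (a : K) : IsPolyC n (fun c => H c * a) := by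
  simpa only [mul_comm] using h.const_mul a

theorem neg {H : (I → K) → K} (h : IsPolyC n H) : IsPolyC n (fun c => - H c) := by
  obtain ⟨Q, hQ, hH⟩ := h
  exact ⟨-Q, by rwa [MvPolynomial.totalDegree_neg], fun c => by simp only [hH, map_neg]⟩

theorem sum {ι : Type*} (s : Finset ι) {H : ι → (I → K) → K} (h : ∀ i ∈ s, IsPolyC n (H i)) :
    IsPolyC n (fun c => ∑ i ∈ s, H i c) := by
  classical
  choose! Q hQ hH using h
  refine ⟨∑ i ∈ s, Q i, MvPolynomial.totalDegree_finsetSum_le hQ, fun c => ?_⟩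
  rw [map_sum]
  exact Finset.sum_congr rfl fun i hi => hH i hi c

theorem exists_grid [CharZero K] [Finite I] {H : (I → K) → K} (h : IsPolyC n H) {c : I → K}
    (hc : H c ≠ 0) : ∃ t : I → Fin (n + 1), H (fun i => ((t i : ℕ) : K)) ≠ 0 := by
  classical
  obtain ⟨Q, hQ, hH⟩ := h
  by_contra hcon
  push Not at hcon
  apply hc
  have hQ0 : Q = 0 := by
    apply MvPolynomial.eq_zero_of_eval_zero_at_prod_finset Q
      (fun _ => (Finset.range (n + 1)).image (Nat.cast : ℕ → K))
    · intro i
      rw [Finset.card_image_of_injective _ Nat.cast_injective, Finset.card_range]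
      exact Nat.lt_succ_of_le ((MvPolynomial.degreeOf_le_totalDegree _ _).trans hQ)
    · intro x hx
      have hx' : ∀ i, ∃ k : Fin (n + 1), ((k : ℕ) : K) = x i := by
        intro i
        obtain ⟨k, hk, hkx⟩ := Finset.mem_image.1 (hx i)
        exact ⟨⟨k, Finset.mem_range.1 hk⟩, hkx⟩
      choose t ht using hx'
      have := hcon t
      rw [hH] at this
      rwa [show (fun i => ((t i : ℕ) : K)) = x from funext ht] at this
  rw [hH, hQ0, map_zero]

end IsPolyC

variable {F : Type*} [Field F] [Algebra K F] (C : Cv K F)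

theorem isPolyC_eval_wK {p : MvPolynomial (Fin C.r) K} {n : ℕ} (hp : p.IsHomogeneous n)
    (Z : Fin C.r → K) : IsPolyC n (fun c => MvPolynomial.eval (wK C c Z) p) := by
  classical
  set W : Fin C.r → MvPolynomial (Fin C.r × Fin C.r) K := fun b =>
    ∑ a, (MvPolynomial.X (a, b) - MvPolynomial.X (b, a)) * MvPolynomial.C (Z a) with hW
  have hWh : ∀ b, (W b).IsHomogeneous 1 := by
    intro b
    refine MvPolynomial.IsHomogeneous.sum _ _ _ fun a _ => ?_
    have h1 : (MvPolynomial.X (a, b) - MvPolynomial.X (b, a) :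
        MvPolynomial (Fin C.r × Fin C.r) K).IsHomogeneous 1 :=
      (MvPolynomial.isHomogeneous_X _ _).sub (MvPolynomial.isHomogeneous_X _ _)
    simpa using h1.mul (MvPolynomial.isHomogeneous_C _ (Z a))
  refine ⟨MvPolynomial.aeval W p, ?_, fun c => ?_⟩
  · have := (hp.aeval W hWh).totalDegree_le
    simpa using this
  · have h2 : MvPolynomial.eval c (MvPolynomial.aeval W p)
        = MvPolynomial.eval (fun b => MvPolynomial.eval c (W b)) p := by
      rw [MvPolynomial.aeval_def, MvPolynomial.eval_eval₂]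
      have h3 : (MvPolynomial.eval c).comp (algebraMap K (MvPolynomial (Fin C.r × Fin C.r) K))
          = RingHom.id K := by
        ext x
        simp
      rw [h3, MvPolynomial.eval₂_id]
    have h4 : wK C c Z = fun b => MvPolynomial.eval c (W b) := by
      funext b
      simp only [hW, wK, map_sum, map_mul, map_sub, MvPolynomial.eval_X, MvPolynomial.eval_C]
    simp only [h2, h4]

end Fermat.Agent.S17.El.XX
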