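import Fermat.Agent.S17.El.X.NZ

/-!
# S17/El/X: the lower bound for `max_t |G_P(c_t, ξ)|`   (WP EL-XE)

`M = n' (κ - 1) ≥ 2g`, `G = M·oo`, `φ` a basis of `L(G)` (`Module.finBasis K (V C.oo M)`, `S27.finiteDimensional_L`), base point free by
`exists_ord_eq_of_span`.  `gg (gridPt t) j = ∑_i lam t j i • φ i` (`gg_mem`).
`Φ t = ∑_{j<κ} (∑_i C (lam t j i) X (inl i)) X (inr 1)^j X (inr 0)^(κ-1-j)`, bidegree `(1, κ-1)`, `τ = (Fin r × Fin r → Fin (n'+1))`.
`eval (Sum.elim z u) (Φ t) = ∑_j (∑_i lam t j i z i) u₁^j u₀^(κ-1-j)`;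
 for `z i = val P (φ i / φ i₀)`:  `∑_i lam t j i z i = val P (gg … j / φ i₀)`, which is `val P (gg … j) / val P (φ i₀)` for `P ≠ oo`
 (`val_div_of_ord_eq_zero`) and `top M (gg … j) / top M (φ i₀)` for `P = oo` (`val_div_oo`): `hnz` of `bpf_prod` is `exists_grid_aff` / `exists_grid_oo`.
Apply `bpf_prod` with `u = ![1, ξ]` (`max 1 (v ξ) ≤ nrm v u`), raise to the power `n`, and use `C.X_pow_le' M` for `φ`.
-/

set_option autoImplicit false

open AlgebraicCurve

namespace Fermat.Agent.S17.El.XX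

variable {K F : Type*} [Field K] [Field F] [Algebra K F] [IsAlgClosed K] [CharZero K]
  [S27.IsFF K F]

variable {C : Cv K F} {x' : F} {n' : ℕ} (D : NData C x' n')

theorem exists_lower :
    ∃ γ : MC K, ∀ (v : AbsoluteValue K ℝ) (P : Place K F), P ≠ C.oo → ∀ ξ : K,
      C.X v P ^ (n' * (C.κ - 1)) * (max 1 (v ξ)) ^ (C.n * (C.κ - 1)) ≤
        γ.val v * (nrm v fun t : Fin C.r × Fin C.r → Fin (n' + 1) =>
          ∑ j ∈ Finset.range C.κ, S27.val P (gg C D.Φ x' (gridPt C t) j) * ξ ^ j) ^ C.n := by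
  classical
  set M : ℕ := n' * (C.κ - 1) with hM
  set G : Divisor K F := Finsupp.single C.oo (M : ℤ) with hG
  have hκ := C.hκ
  have hn' := D.hn'
  have hM2g : 2 * genusFF K F ≤ M := by
    have h1 : 2 * genusFF K F ≤ C.κ - 1 := by omega
    calc 2 * genusFF K F ≤ 1 * (C.κ - 1) := by omega
      _ ≤ n' * (C.κ - 1) := Nat.mul_le_mul_right _ hn'
  have hdegG : 2 * (genusFF K F : ℤ) ≤ Divisor.degree G := by
    rw [hG, RR.degree_single]
    exact_mod_cast hM2g
  -- the basis
  let B := Module.finBasis K (V C.oo M)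
  let φ : Fin (Module.finrank K (V C.oo M)) → F := fun i => (B i : F)
  have hφmem : ∀ i, φ i ∈ V C.oo M := fun i => (B i).2
  have hspan : Submodule.span K (Set.range φ) = V C.oo M := by
    have h1 : Set.range φ = (V C.oo M).subtype '' Set.range B := by
      rw [← Set.range_comp]; rfl
    rw [h1, ← Submodule.map_span, B.span_eq, Submodule.map_top, Submodule.range_subtype]
  have hbpf : ∀ P : Place K F, ∃ i, φ i ≠ 0 ∧ P.ord (φ i) = - G P :=
    fun P => exists_ord_eq_of_span φ G hspan hdegG P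
  -- coordinates
  have hex : ∀ (t : Fin C.r × Fin C.r → Fin (n' + 1)) (j : ℕ), ∃ lam : Fin (Module.finrank K (V C.oo M)) → K,
      j < C.κ → gg C D.Φ x' (gridPt C t) j = ∑ i, lam i • φ i := by
    intro t j
    by_cases hj : j < C.κ
    · have hmem : gg C D.Φ x' (gridPt C t) j ∈ Submodule.span K (Set.range φ) := by
        rw [hspan]; exact gg_mem D _ hj
      obtain ⟨lam, hlam⟩ := (Submodule.mem_span_range_iff_exists_fun K).mp hmem
      exact ⟨lam, fun _ => hlam.symm⟩
    · exact ⟨0, fun h => absurd h hj⟩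
  choose lam hlam using hex
  let Φ : (Fin C.r × Fin C.r → Fin (n' + 1)) →
      MvPolynomial (Fin (Module.finrank K (V C.oo M)) ⊕ Fin 2) K := fun t =>
    ∑ j ∈ Finset.range C.κ, (∑ i, MvPolynomial.C (lam t j i) * MvPolynomial.X (Sum.inl i)) *
      MvPolynomial.X (Sum.inr 1) ^ j * MvPolynomial.X (Sum.inr 0) ^ (C.κ - 1 - j)
  have heval : ∀ t (z : Fin (Module.finrank K (V C.oo M)) → K) (u : Fin 2 → K),
      MvPolynomial.eval (Sum.elim z u) (Φ t) =
        ∑ j ∈ Finset.range C.κ, (∑ i, lam t j i * z i) * u 1 ^ j * u 0 ^ (C.κ - 1 - j) := by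
    intro t z u
    simp only [Φ, map_sum, map_mul, map_pow, MvPolynomial.eval_C, MvPolynomial.eval_X,
      Sum.elim_inl, Sum.elim_inr]
  have hvalgg : ∀ t (P : Place K F), P ≠ C.oo → ∀ j, j < C.κ →
      ∑ i, lam t j i * S27.val P (φ i) = S27.val P (gg C D.Φ x' (gridPt C t) j) := by
    intro t P hP j hj
    have hO : ∀ i, φ i ∈ P.toValuationSubring := fun i => mem_Reg_of_mem_V C (hφmem i) P hP
    rw [hlam t j hj, val_sum P _ _ (fun i _ => by
      rw [Algebra.smul_def]
      exact mul_mem (P.algebraMap_mem' _) (hO i))]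
    exact Finset.sum_congr rfl fun i _ => (val_smul P _ (hO i)).symm
  have htopgg : ∀ t j, j < C.κ →
      ∑ i, lam t j i * top C M (φ i) = top C M (gg C D.Φ x' (gridPt C t) j) := by
    intro t j hj
    rw [hlam t j hj, top_sum C _ _ (fun i _ => (V C.oo M).smul_mem _ (hφmem i))]
    exact Finset.sum_congr rfl fun i _ => (top_smul C _ (hφmem i)).symm
  obtain ⟨γ0, hγ0⟩ := bpf_prod φ G hφmem hbpf Φ 1 (C.κ - 1)
    (by
      intro t z u a b
      rw [heval, heval, Finset.mul_sum]
      refine Finset.sum_congr rfl fun j hj => ?_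
      have hj' : j < C.κ := Finset.mem_range.mp hj
      have h1 : ∑ i, lam t j i * (a * z i) = a * ∑ i, lam t j i * z i := by
        rw [Finset.mul_sum]
        exact Finset.sum_congr rfl fun i _ => by ring
      have h2 : b ^ (C.κ - 1) = b ^ j * b ^ (C.κ - 1 - j) := by
        rw [← pow_add]; congr 1; omega
      rw [h1, h2, mul_pow, mul_pow]
      ring)
    (by
      intro P i₀ hi₀ hord u hu
      by_cases hP : P = C.oo
      · subst hP
        have hord' : C.oo.ord (φ i₀) = -(M : ℤ) := by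
          rw [hord, hG, Finsupp.single_eq_same]
        obtain ⟨t, ht⟩ := exists_grid_oo D hu
        refine ⟨t, ?_⟩
        rw [heval]
        have hδ : top C M (φ i₀) ≠ 0 := top_ne_zero C hi₀ hord'
        have h1 : ∑ j ∈ Finset.range C.κ, (∑ i, lam t j i * S27.val C.oo (φ i / φ i₀)) * u 1 ^ j *
            u 0 ^ (C.κ - 1 - j) = (∑ j ∈ Finset.range C.κ,
              top C M (gg C D.Φ x' (gridPt C t) j) * u 1 ^ j * u 0 ^ (C.κ - 1 - j)) /
              top C M (φ i₀) := by
          rw [Finset.sum_div]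
          refine Finset.sum_congr rfl fun j hj => ?_
          rw [← htopgg t j (Finset.mem_range.mp hj)]
          have : ∑ i, lam t j i * S27.val C.oo (φ i / φ i₀) =
              (∑ i, lam t j i * top C M (φ i)) / top C M (φ i₀) := by
            rw [Finset.sum_div]
            refine Finset.sum_congr rfl fun i _ => ?_
            rw [val_div_oo C (hφmem i) hi₀ hord', mul_div_assoc]
          rw [this]
          ring
        rw [h1]
        exact div_ne_zero ht hδ
      · have hord' : P.ord (φ i₀) = 0 := by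
          rw [hord, hG, Finsupp.single_eq_of_ne hP, neg_zero]
        obtain ⟨t, ht⟩ := exists_grid_aff D hP hu
        refine ⟨t, ?_⟩
        rw [heval]
        have hδ : S27.val P (φ i₀) ≠ 0 := val_ne_zero_of_ord_eq_zero P hi₀ hord'
        have h1 : ∑ j ∈ Finset.range C.κ, (∑ i, lam t j i * S27.val P (φ i / φ i₀)) * u 1 ^ j *
            u 0 ^ (C.κ - 1 - j) = (∑ j ∈ Finset.range C.κ,
              S27.val P (gg C D.Φ x' (gridPt C t) j) * u 1 ^ j * u 0 ^ (C.κ - 1 - j)) /
              S27.val P (φ i₀) := by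
          rw [Finset.sum_div]
          refine Finset.sum_congr rfl fun j hj => ?_
          rw [← hvalgg t P hP j (Finset.mem_range.mp hj)]
          have : ∑ i, lam t j i * S27.val P (φ i / φ i₀) =
              (∑ i, lam t j i * S27.val P (φ i)) / S27.val P (φ i₀) := by
            rw [Finset.sum_div]
            refine Finset.sum_congr rfl fun i _ => ?_
            rw [val_div_of_ord_eq_zero P (mem_Reg_of_mem_V C (hφmem i) P hP) hi₀ hord',
              mul_div_assoc]
          rw [this]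
          ring
        rw [h1]
        exact div_ne_zero ht hδ)
  obtain ⟨γ1, hγ1⟩ := C.X_pow_le' M hM2g φ hspan
  refine ⟨γ1.mul (γ0.pow C.n), ?_⟩
  intro v P hP ξ
  set T : ℝ := nrm v fun t : Fin C.r × Fin C.r → Fin (n' + 1) =>
          ∑ j ∈ Finset.range C.κ, S27.val P (gg C D.Φ x' (gridPt C t) j) * ξ ^ j with hT
  set Nφ : ℝ := nrm v fun a => S27.val P (φ a) with hNφ
  set mx : ℝ := max 1 (v ξ) with hmx
  have hGP : G P = 0 := by rw [hG, Finsupp.single_eq_of_ne hP]
  have hu : (![1, ξ] : Fin 2 → K) ≠ 0 := by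
    intro h
    have := congrFun h 0
    simp at this
  have h1 := hγ0 v P hGP ![1, ξ] hu
  have h2 : (fun t => MvPolynomial.eval (Sum.elim (fun i => S27.val P (φ i)) ![1, ξ]) (Φ t)) =
      fun t : Fin C.r × Fin C.r → Fin (n' + 1) =>
          ∑ j ∈ Finset.range C.κ, S27.val P (gg C D.Φ x' (gridPt C t) j) * ξ ^ j := by
    funext t
    rw [heval]
    refine Finset.sum_congr rfl fun j hj => ?_
    rw [hvalgg t P hP j (Finset.mem_range.mp hj)]
    simp
  rw [h2, pow_one] at h1
  have hmxle : mx ≤ nrm v (![1, ξ] : Fin 2 → K) := by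
    refine max_le ?_ ?_
    · have := le_nrm v (![1, ξ] : Fin 2 → K) 0
      simpa using this
    · have := le_nrm v (![1, ξ] : Fin 2 → K) 1
      simpa using this
  have hmx0 : 0 ≤ mx := le_trans zero_le_one (le_max_left _ _)
  have hNφ0 : 0 ≤ Nφ := nrm_nonneg v _
  have hT0 : 0 ≤ T := nrm_nonneg v _
  have h3 : Nφ * mx ^ (C.κ - 1) ≤ γ0.val v * T :=
    le_trans (mul_le_mul_of_nonneg_left (pow_le_pow_left₀ hmx0 hmxle _) hNφ0) h1
  calc C.X v P ^ M * mx ^ (C.n * (C.κ - 1))
      ≤ (γ1.val v * Nφ ^ C.n) * mx ^ (C.n * (C.κ - 1)) :=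
        mul_le_mul_of_nonneg_right (hγ1 v P hP) (pow_nonneg hmx0 _)
    _ = γ1.val v * (Nφ * mx ^ (C.κ - 1)) ^ C.n := by
        rw [mul_pow, ← pow_mul, mul_comm (C.κ - 1) C.n]; ring
    _ ≤ γ1.val v * (γ0.val v * T) ^ C.n :=
        mul_le_mul_of_nonneg_left (pow_le_pow_left₀ (mul_nonneg hNφ0 (pow_nonneg hmx0 _)) h3 _)
          (γ1.val_pos v).le
    _ = (γ1.val v * γ0.val v ^ C.n) * T ^ C.n := by rw [mul_pow]; ring
    _ ≤ (γ1.mul (γ0.pow C.n)).val v * T ^ C.n := by
        refine mul_le_mul_of_nonneg_right ?_ (pow_nonneg hT0 _)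
        refine le_trans ?_ (MC.val_mul_le _ _ v)
        exact mul_le_mul_of_nonneg_left (MC.val_pow_le _ _ v) (γ1.val_pos v).le

end Fermat.Agent.S17.El.XX
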