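import Fermat.Agent.S17.El.X.Root

/-!
# S17/El/X: non-vanishing of `G_P(c, u) = ∑_{j<κ} (gg c j)(P) u₁^j u₀^(κ-1-j)`   (WP EL-XD)

`M = n' (κ - 1)`.
* `exists_c_eq`: pick `a₀` with `Z a₀ ≠ 0`, `c (a₀, b) = w b / Z a₀` for `b ≠ a₀` and `0` otherwise (check `wK c Z = w` using `∑ w b Z b = 0`).
* `eP_ne_zero`: `1 ∈ L(κ·oo)` is a combination of the `e_a` (`C.hspan`), evaluate at `P`.
  `eoo_ne_zero`: `exists_section (κ·oo) {oo}` gives `f ∈ L(κ·oo)` of exact order `-κ`: `top κ f ≠ 0` (`top_ne_zero`) is a combination of the `eoo a`.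
* `exists_c_aff`.  `ξ := u 1 / u 0` if `u 0 ≠ 0`.  `exists_section` for `κ·oo - P` (degree `κ - 1 ≥ 2g`) and
  `S = supp div(x' - ξ) ∪ {P, oo}`: `y ≠ 0`, `ord_P y = 1`, `ord_oo y = -κ`, `ord_Q y = 0` at the other points of the fibre of `ξ`.
  `y = yZ c (eP P)` (`exists_c_eq`, `val_P y = 0`).  `Nm_yZ_eq`: `N y = (X - x'(P)) Ĝ`; `Nm_factor` + `zprod_eq_mul_zprodE`:
  `N y = Lc (X - x'(P))^1 zprodE oo y P (X - x'(Q))`; cancel: `Ĝ = Lc zprodE …`, so `Ĝ(ξ) ≠ 0`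
  (`Q ∈ supp div y`, `Q ≠ P, oo` ⇒ `x'(Q) ≠ ξ`).  `∑_j Ĝ_j u₁^j u₀^(κ-1-j) = u₀^(κ-1) Ĝ(ξ)`.
  If `u 0 = 0`: only `j = κ - 1` survives, `(gg c (κ-1))(P) = coeff_κ N y` (`val_gg`) `= Lc ≠ 0` since `natDegree (N y) = dg y = κ`.
* `exists_c_oo`.  `exists_section` for `(κ-1)·oo`, `S = supp div(x' - ξ) ∪ {oo}`: `y` of exact degree `κ - 1`, without zero on the fibre of `ξ`;
  `top κ y = 0`, so `y = yZ c eoo`; `top_gg`: `top M (gg c j) = - coeff_j (N y) / top n' x'`; `∑_{j<κ} coeff_j(N y) u₁^j u₀^(κ-1-j)` is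
  `u₀^(κ-1) (N y)(ξ) ≠ 0` (`Nm_eval`) resp. `Lc u₁^(κ-1)`.
* grid versions: `IsPolyC.sum`, `IsPolyC.mul_const`, `isPolyC_val_gg`, `isPolyC_top_gg`, `IsPolyC.exists_grid`.
-/

set_option autoImplicit false
set_option linter.unusedSectionVars false

open AlgebraicCurve Polynomial

namespace Fermat.Agent.S17.El.XX

variable {K F : Type*} [Field K] [Field F] [Algebra K F] [IsAlgClosed K] [CharZero K]
  [S27.IsFF K F]

variable {C : Cv K F}

omit [IsAlgClosed K] [CharZero K] [S27.IsFF K F] in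
theorem exists_c_eq {Z : Fin C.r → K} (hZ : Z ≠ 0) (w : Fin C.r → K) (h : ∑ b, w b * Z b = 0) :
    ∃ c : Fin C.r × Fin C.r → K, yZ C c Z = ∑ b, w b • C.e b := by
  classical
  obtain ⟨a₀, ha₀⟩ : ∃ a, Z a ≠ 0 := by
    by_contra hcon
    push Not at hcon
    exact hZ (funext hcon)
  refine ⟨fun ab => if ab.1 = a₀ ∧ ab.2 ≠ a₀ then w ab.2 / Z a₀ else 0, ?_⟩
  unfold yZ
  refine Finset.sum_congr rfl fun b _ => ?_
  congr 1
  unfold wK
  by_cases hb : b = a₀
  · subst hb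
    have h1 : ∀ a, ((if a = b ∧ b ≠ b then w b / Z b else 0) -
        (if b = b ∧ a ≠ b then w a / Z b else 0)) * Z a =
        -(w a * Z a) / Z b + (if a = b then w b else 0) := by
      intro a
      by_cases hab : a = b
      · subst hab
        simp
        field_simp
        ring
      · simp [hab]
        ring
    rw [Finset.sum_congr rfl (fun a _ => h1 a), Finset.sum_add_distrib, ← Finset.sum_div,
      Finset.sum_neg_distrib, h]
    simp
  · rw [Finset.sum_eq_single a₀]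
    · simp [hb]
      field_simp
    · intro a _ ha
      simp [ha, hb]
    · intro h; exact absurd (Finset.mem_univ _) h

theorem eP_ne_zero {P : Place K F} (hP : P ≠ C.oo) : eP C P ≠ 0 := by
  obtain ⟨a, ha⟩ := C.exists_val_e_ne_zero hP
  intro h
  exact ha (congrFun h a)

omit [IsAlgClosed K] [CharZero K] [S27.IsFF K F] in
/-- every element of `L(κ·oo)` is a combination of the `e b`. -/
theorem exists_coord {y : F} (hy : y ∈ V C.oo C.κ) : ∃ w : Fin C.r → K, ∑ b, w b • C.e b = y := by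
  rw [← C.hspan] at hy
  exact (Submodule.mem_span_range_iff_exists_fun K).mp hy

theorem top_sum_e (w : Fin C.r → K) :
    top C C.κ (∑ b, w b • C.e b) = ∑ b, w b * eoo C b := by
  rw [top_sum C _ _ (fun b _ => Submodule.smul_mem _ _ (C.e_mem b))]
  refine Finset.sum_congr rfl fun b _ => ?_
  rw [top_smul C _ (C.e_mem b)]
  rfl

theorem degree_single_oo (k : ℤ) : Divisor.degree (Finsupp.single C.oo k) = k := by
  rw [Divisor.degree_single, S27.deg_eq_one]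
  simp

theorem eoo_ne_zero : eoo C ≠ 0 := by
  classical
  have hκ := C.hκ
  obtain ⟨f, hf, hf0, hS⟩ := exists_section (Finsupp.single C.oo (C.κ : ℤ))
    (by rw [degree_single_oo]; omega) {C.oo}
  have h1 := hS C.oo (Finset.mem_singleton_self _)
  rw [Finsupp.single_eq_same] at h1
  have h2 := top_ne_zero C hf0 h1
  obtain ⟨w, hw⟩ := exists_coord (C := C) hf
  rw [← hw, top_sum_e] at h2
  intro h
  apply h2
  simp [h]

variable {x' : F} {n' : ℕ} (D : NData C x' n')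

include D in
/-- a place where `x'` takes the value `ξ` lies in the support of `div (x' - ξ)`. -/
theorem mem_support_of_val_eq {Q : Place K F} (hQ : Q ≠ C.oo) {ξ : K} (h : S27.val Q x' = ξ) :
    Q ∈ (RR.divOf K (x' - algebraMap K F ξ)).support := by
  have h1 := S27.val_spec Q ((S27.adic_le_one_iff_mem Q).2 (D.hx' Q hQ))
  rw [h, S27.adic_lt_one_iff_ord] at h1
  rcases h1 with h1 | h1
  · exact absurd h1 (x'_sub_ne_zero D ξ)
  · rw [Finsupp.mem_support_iff, RR.divOf_apply]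
    omega

/-- homogenisation of a polynomial of degree `< κ`. -/
theorem sum_homog (κ : ℕ) (a : ℕ → K) {u : Fin 2 → K} (hu0 : u 0 ≠ 0) :
    ∑ j ∈ Finset.range κ, a j * u 1 ^ j * u 0 ^ (κ - 1 - j) =
      u 0 ^ (κ - 1) * ∑ j ∈ Finset.range κ, a j * (u 1 / u 0) ^ j := by
  rw [Finset.mul_sum]
  refine Finset.sum_congr rfl fun j hj => ?_
  have hj' : j < κ := Finset.mem_range.1 hj
  have h1 : u 0 ^ (κ - 1) = u 0 ^ j * u 0 ^ (κ - 1 - j) := by
    rw [← pow_add]; congr 1; omega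
  rw [h1, div_pow]
  field_simp

theorem sum_homog_zero (κ : ℕ) (hκ : 0 < κ) (a : ℕ → K) {u : Fin 2 → K} (hu0 : u 0 = 0) :
    ∑ j ∈ Finset.range κ, a j * u 1 ^ j * u 0 ^ (κ - 1 - j) = a (κ - 1) * u 1 ^ (κ - 1) := by
  rw [Finset.sum_eq_single (κ - 1)]
  · simp
  · intro j hj hne
    have hj' : j < κ := Finset.mem_range.1 hj
    rw [hu0, zero_pow (by omega), mul_zero]
  · intro h
    exact absurd (Finset.mem_range.2 (by omega)) h

theorem u_one_ne_zero {u : Fin 2 → K} (hu : u ≠ 0) (hu0 : u 0 = 0) : u 1 ≠ 0 := by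
  intro h1
  apply hu
  funext i
  fin_cases i
  · exact hu0
  · exact h1

theorem exists_c_aff_aux {P : Place K F} (hP : P ≠ C.oo) (ξ : K) :
    ∃ c : Fin C.r × Fin C.r → K,
      ∑ j ∈ Finset.range C.κ, S27.val P (gg C D.Φ x' c j) * ξ ^ j ≠ 0 ∧
      S27.val P (gg C D.Φ x' c (C.κ - 1)) ≠ 0 := by
  classical
  have hκ := C.hκ
  set D₀ : Divisor K F := Finsupp.single C.oo (C.κ : ℤ) - Finsupp.single P 1 with hD₀
  have hdeg : Divisor.degree D₀ = C.κ - 1 := by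
    rw [hD₀, map_sub, degree_single_oo, Divisor.degree_single, S27.deg_eq_one]
    simp
  obtain ⟨y, hy, hy0, hS⟩ := exists_section D₀ (by rw [hdeg]; omega)
    ((RR.divOf K (x' - algebraMap K F ξ)).support ∪ {P, C.oo})
  have hD₀P : D₀ P = -1 := by
    rw [hD₀, Finsupp.sub_apply, Finsupp.single_eq_of_ne hP, Finsupp.single_eq_same]
    ring
  have hD₀oo : D₀ C.oo = C.κ := by
    rw [hD₀, Finsupp.sub_apply, Finsupp.single_eq_of_ne (Ne.symm hP), Finsupp.single_eq_same]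
    ring
  have hD₀Q : ∀ Q, Q ≠ P → Q ≠ C.oo → D₀ Q = 0 := by
    intro Q h1 h2
    rw [hD₀, Finsupp.sub_apply, Finsupp.single_eq_of_ne h1, Finsupp.single_eq_of_ne h2]
    ring
  have hordP : P.ord y = 1 := by
    rw [hS P (by simp), hD₀P]; ring
  have hordoo : C.oo.ord y = -(C.κ : ℤ) := by
    rw [hS C.oo (by simp), hD₀oo]
  have hyV : y ∈ V C.oo C.κ := by
    rw [mem_V_iff]
    refine ⟨fun Q hQ => ?_, Or.inr hordoo.ge⟩
    rw [mem_place_iff_zp]
    right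
    by_cases hQP : Q = P
    · subst hQP; omega
    · have := (mem_riemannRochSpace_iff.1 hy Q).resolve_left hy0
      rw [hD₀Q Q hQP hQ] at this
      omega
  have hyReg : y ∈ Reg C.oo := (mem_V_iff.1 hyV).1
  obtain ⟨w, hw⟩ := exists_coord hyV
  have hvalP : S27.val P y = 0 :=
    (S27.val_eq_zero_iff P ((S27.adic_le_one_iff_mem P).2 (hyReg P hP))).2
      ((S27.adic_lt_one_iff_ord P).2 (Or.inr (by omega)))
  have hsum : ∑ b, w b * eP C P b = 0 := by
    rw [← hvalP, ← hw, C.val_sum_e hP]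
    rfl
  obtain ⟨c, hc⟩ := exists_c_eq (eP_ne_zero hP) w hsum
  rw [hw] at hc
  have hLc : (Nm K x' y).leadingCoeff ≠ 0 :=
    Polynomial.leadingCoeff_ne_zero.2 (Nm_ne_zero C D.hx' D.hn' D.hd hyReg hy0)
  refine ⟨c, ?_, ?_⟩
  · have h1 := Nm_yZ_eq D c hP
    rw [hc, Nm_factor C D.hx' D.hn' D.hd hyReg hy0, zprod_eq_mul_zprodE hP, hordP] at h1
    have h2 : Polynomial.C (Nm K x' y).leadingCoeff *
        zprodE C.oo y P (fun Q => X - Polynomial.C (S27.val Q x')) =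
        ∑ j ∈ Finset.range C.κ, Polynomial.C (S27.val P (gg C D.Φ x' c j)) * X ^ j := by
      apply mul_left_cancel₀ (Polynomial.X_sub_C_ne_zero (S27.val P x'))
      rw [← h1]
      simp only [Int.toNat_one, pow_one]
      ring
    have h3 := congrArg (Polynomial.eval ξ) h2
    simp only [Polynomial.eval_finsetSum, Polynomial.eval_mul, Polynomial.eval_C,
      Polynomial.eval_pow, Polynomial.eval_X] at h3
    rw [← h3]
    refine mul_ne_zero hLc ?_
    unfold zprodE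
    rw [Polynomial.eval_prod, Finset.prod_ne_zero_iff]
    intro Q hQ
    rw [Finset.mem_erase, Finset.mem_erase, Finsupp.mem_support_iff, RR.divOf_apply] at hQ
    obtain ⟨hQP, hQoo, hQy⟩ := hQ
    rw [Polynomial.eval_pow]
    apply pow_ne_zero
    rw [Polynomial.eval_sub, Polynomial.eval_X, Polynomial.eval_C]
    intro h4
    have h5 : S27.val Q x' = ξ := (sub_eq_zero.1 h4).symm
    have h6 := hS Q (Finset.mem_union_left _ (mem_support_of_val_eq D hQoo h5))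
    rw [hD₀Q Q hQP hQoo] at h6
    exact hQy (by omega)
  · rw [val_gg D c hP, hc]
    have h1 : Finset.Ioc (C.κ - 1) C.κ = {C.κ} := by
      ext i
      simp only [Finset.mem_Ioc, Finset.mem_singleton]
      omega
    rw [h1, Finset.sum_singleton]
    have h2 : (Nm K x' y).natDegree = C.κ := by
      rw [natDegree_Nm C D.hx' D.hn' D.hd hyReg hy0, dg, hordoo]
      simp
    have h3 : C.κ - (C.κ - 1) - 1 = 0 := by omega
    rw [h3, pow_zero, mul_one, ← h2]
    exact hLc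

theorem exists_c_aff {P : Place K F} (hP : P ≠ C.oo) {u : Fin 2 → K} (hu : u ≠ 0) :
    ∃ c : Fin C.r × Fin C.r → K,
      ∑ j ∈ Finset.range C.κ, S27.val P (gg C D.Φ x' c j) * u 1 ^ j * u 0 ^ (C.κ - 1 - j) ≠ 0 := by
  have hκ := C.hκ
  by_cases hu0 : u 0 = 0
  · obtain ⟨c, -, hc⟩ := exists_c_aff_aux D hP 0
    refine ⟨c, ?_⟩
    rw [sum_homog_zero C.κ (by omega) (fun j => S27.val P (gg C D.Φ x' c j)) hu0]
    exact mul_ne_zero hc (pow_ne_zero _ (u_one_ne_zero hu hu0))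
  · obtain ⟨c, hc, -⟩ := exists_c_aff_aux D hP (u 1 / u 0)
    refine ⟨c, ?_⟩
    rw [sum_homog C.κ (fun j => S27.val P (gg C D.Φ x' c j)) hu0]
    exact mul_ne_zero (pow_ne_zero _ hu0) hc

include D in
theorem exists_c_oo_aux (ξ : K) :
    ∃ c : Fin C.r × Fin C.r → K,
      ∑ j ∈ Finset.range C.κ, (Nm K x' (yZ C c (eoo C))).coeff j * ξ ^ j ≠ 0 ∧
      (Nm K x' (yZ C c (eoo C))).coeff (C.κ - 1) ≠ 0 := by
  classical
  have hκ := C.hκ
  obtain ⟨y, hy, hy0, hS⟩ := exists_section (Finsupp.single C.oo ((C.κ - 1 : ℕ) : ℤ))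
    (by rw [degree_single_oo]; omega)
    ((RR.divOf K (x' - algebraMap K F ξ)).support ∪ {C.oo})
  have hordoo : C.oo.ord y = -((C.κ - 1 : ℕ) : ℤ) := by
    rw [hS C.oo (by simp), Finsupp.single_eq_same]
  have hyV : y ∈ V C.oo C.κ := V_mono C.oo (by omega) hy
  have hyReg : y ∈ Reg C.oo := (mem_V_iff.1 hyV).1
  obtain ⟨w, hw⟩ := exists_coord hyV
  have htop : top C C.κ y = 0 := top_eq_zero_of_lt C hy (by omega)
  have hsum : ∑ b, w b * eoo C b = 0 := by
    rw [← htop, ← hw, top_sum_e]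
  obtain ⟨c, hc⟩ := exists_c_eq eoo_ne_zero w hsum
  rw [hw] at hc
  have hLc : (Nm K x' y).leadingCoeff ≠ 0 :=
    Polynomial.leadingCoeff_ne_zero.2 (Nm_ne_zero C D.hx' D.hn' D.hd hyReg hy0)
  have hdeg : (Nm K x' y).natDegree = C.κ - 1 := by
    rw [natDegree_Nm C D.hx' D.hn' D.hd hyReg hy0, dg, hordoo]
    simp
  refine ⟨c, ?_, ?_⟩
  · rw [hc, ← Polynomial.eval_eq_sum_range' (by rw [hdeg]; omega),
      Nm_eval C D.hx' D.hn' D.hd hyReg ξ]
    unfold zprod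
    rw [Finset.prod_ne_zero_iff]
    intro Q hQ
    apply pow_ne_zero
    have hQ' := Finset.mem_erase.1 hQ
    have h1 := hS Q (Finset.mem_union_left _ hQ'.2)
    rw [Finsupp.single_eq_of_ne hQ'.1, neg_zero] at h1
    exact val_ne_zero_of_ord_eq_zero Q hy0 h1
  · rw [hc, ← hdeg]
    exact hLc

theorem exists_c_oo {u : Fin 2 → K} (hu : u ≠ 0) :
    ∃ c : Fin C.r × Fin C.r → K,
      ∑ j ∈ Finset.range C.κ,
        top C (n' * (C.κ - 1)) (gg C D.Φ x' c j) * u 1 ^ j * u 0 ^ (C.κ - 1 - j) ≠ 0 := by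
  have hκ := C.hκ
  have hx0 : x' ≠ 0 := by
    have := x'_sub_ne_zero D 0
    rwa [map_zero, sub_zero] at this
  have key : ∀ c : Fin C.r × Fin C.r → K,
      ∑ j ∈ Finset.range C.κ, (Nm K x' (yZ C c (eoo C))).coeff j * u 1 ^ j * u 0 ^ (C.κ - 1 - j) ≠ 0 →
      ∑ j ∈ Finset.range C.κ,
        top C (n' * (C.κ - 1)) (gg C D.Φ x' c j) * u 1 ^ j * u 0 ^ (C.κ - 1 - j) ≠ 0 := by
    intro c hc h0
    apply hc
    have h1 : ∑ j ∈ Finset.range C.κ,
        (Nm K x' (yZ C c (eoo C))).coeff j * u 1 ^ j * u 0 ^ (C.κ - 1 - j) =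
        - (top C n' x' * ∑ j ∈ Finset.range C.κ,
          top C (n' * (C.κ - 1)) (gg C D.Φ x' c j) * u 1 ^ j * u 0 ^ (C.κ - 1 - j)) := by
      rw [Finset.mul_sum, ← Finset.sum_neg_distrib]
      refine Finset.sum_congr rfl fun j hj => ?_
      have := top_gg D c (Finset.mem_range.1 hj)
      rw [← mul_assoc, ← mul_assoc, this]
      ring
    rw [h1, h0, mul_zero, neg_zero]
  by_cases hu0 : u 0 = 0
  · obtain ⟨c, -, hc⟩ := exists_c_oo_aux D 0
    refine ⟨c, key c ?_⟩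
    rw [sum_homog_zero C.κ (by omega) (fun j => (Nm K x' (yZ C c (eoo C))).coeff j) hu0]
    exact mul_ne_zero hc (pow_ne_zero _ (u_one_ne_zero hu hu0))
  · obtain ⟨c, hc, -⟩ := exists_c_oo_aux D (u 1 / u 0)
    refine ⟨c, key c ?_⟩
    rw [sum_homog C.κ (fun j => (Nm K x' (yZ C c (eoo C))).coeff j) hu0]
    exact mul_ne_zero (pow_ne_zero _ hu0) hc

theorem exists_grid_aff {P : Place K F} (hP : P ≠ C.oo) {u : Fin 2 → K} (hu : u ≠ 0) :
    ∃ t : Fin C.r × Fin C.r → Fin (n' + 1),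
      ∑ j ∈ Finset.range C.κ,
        S27.val P (gg C D.Φ x' (gridPt C t) j) * u 1 ^ j * u 0 ^ (C.κ - 1 - j) ≠ 0 := by
  obtain ⟨c, hc⟩ := exists_c_aff D hP hu
  have hpoly : IsPolyC n' (fun c : Fin C.r × Fin C.r → K => ∑ j ∈ Finset.range C.κ,
      S27.val P (gg C D.Φ x' c j) * u 1 ^ j * u 0 ^ (C.κ - 1 - j)) :=
    IsPolyC.sum _ fun j _ => ((isPolyC_val_gg D hP j).mul_const _).mul_const _
  exact hpoly.exists_grid hc

theorem exists_grid_oo {u : Fin 2 → K} (hu : u ≠ 0) :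
    ∃ t : Fin C.r × Fin C.r → Fin (n' + 1),
      ∑ j ∈ Finset.range C.κ,
        top C (n' * (C.κ - 1)) (gg C D.Φ x' (gridPt C t) j) * u 1 ^ j * u 0 ^ (C.κ - 1 - j) ≠ 0 := by
  obtain ⟨c, hc⟩ := exists_c_oo D hu
  have hpoly : IsPolyC n' (fun c : Fin C.r × Fin C.r → K => ∑ j ∈ Finset.range C.κ,
      top C (n' * (C.κ - 1)) (gg C D.Φ x' c j) * u 1 ^ j * u 0 ^ (C.κ - 1 - j)) :=
    IsPolyC.sum _ fun j hj =>
      ((isPolyC_top_gg D (Finset.mem_range.1 hj)).mul_const _).mul_const _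
  exact hpoly.exists_grid hc

end Fermat.Agent.S17.El.XX
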