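import Fermat.Agent.S17.El.X.Top
import Fermat.Agent.S17.El.X.Grid

/-!
# S17/El/X: the functions `Psi c i`, `gg c j`   (WP EL-XC)

Notation of `X/Defs.lean`; `D : NData C x' n'`, `M = n' (κ - 1)`, `κ n' = M + n'`.

* `val_Psi`, `top_Psi`: `mem_and_val_aeval`, `top_aeval`, `D.spec`.
* `coeff_Nm_yZ`: if `wK c Z = 0` all `eval 0 (Φ i) = 0` (homogeneous of degree `n' > 0`); otherwise `yZ c Z ≠ 0` (`C.he`) and
  `natDegree_Nm` + `dg ≤ κ` (`mem_V_iff`, `ord_eq_neg_dg`).
* `eval_Nm_yZ_self`: `Nm_eval` + `zprod_eq_mul_zprodE` at `P`: the factor is `0 ^ (ord_P (x' - x'(P))).toNat`, and that order is `≥ 1`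
  (`S27.val_spec`, `S27.adic_lt_one_iff_ord`; `x'` is not constant).
* `sum_Psi_mul_pow`: the left side lies in `Reg oo` and its value at every affine place is `eval (x'(P)) (N y_c^P) = 0`; a nonzero function has
  finitely many zeros (`S27.finite_zeros`, `S27.infinite_places`, `S27.val_eq_zero_iff`).
* `gg_mul_pow`: `sum_split` + `sum_Psi_mul_pow`.
* `gg_mem`, `top_gg`: multiply `gg_mul_pow` by `t^(κ n' + n' j)`:  with `ω = x' t^n'` (a unit at `oo`), `A_i = Psi c i t^(κ n')` (regular at `oo`):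
  `(gg c j t^M) ω^(j+1) = - ∑_{i ≤ j} A_i ω^i t^(n' (j-i))`.  So `gg c j t^M` is regular at `oo` with value `- A_j(oo) / ω(oo)`.
* `Nm_yZ_eq`: `synth_div` for `a i = coeff_i`, `s = x'(P)`; `Polynomial.as_sum_range'`.
-/

set_option autoImplicit false
set_option linter.unusedSectionVars false

open AlgebraicCurve Polynomial

namespace Fermat.Agent.S17.El.XX

variable {K F : Type*} [Field K] [Field F] [Algebra K F] [IsAlgClosed K] [CharZero K]
  [S27.IsFF K F]

variable {C : Cv K F}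

section basic

variable (c : Fin C.r × Fin C.r → K)

theorem wF_mem (b : Fin C.r) : wF C c b ∈ V C.oo C.κ :=
  Submodule.sum_mem _ fun a _ => Submodule.smul_mem _ _ (C.e_mem a)

theorem val_wF {P : Place K F} (hP : P ≠ C.oo) (b : Fin C.r) :
    S27.val P (wF C c b) = wK C c (eP C P) b :=
  C.val_sum_e hP (fun a => c (a, b) - c (b, a))

theorem top_wF (b : Fin C.r) : top C C.κ (wF C c b) = wK C c (eoo C) b := by
  unfold wF wK
  rw [top_sum C _ _ (fun a _ => Submodule.smul_mem _ _ (C.e_mem a))]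
  refine Finset.sum_congr rfl fun a _ => ?_
  rw [top_smul C _ (C.e_mem a)]
  rfl

theorem yZ_mem (Z : Fin C.r → K) : yZ C c Z ∈ V C.oo C.κ :=
  Submodule.sum_mem _ fun b _ => Submodule.smul_mem _ _ (C.e_mem b)

theorem yZ_eP (P : Place K F) :
    yZ C c (eP C P) = ∑ ab : Fin C.r × Fin C.r, c ab • C.yy P ab.1 ab.2 := by
  unfold yZ wK Cv.yy eP
  rw [Fintype.sum_prod_type]
  simp only [smul_sub, Finset.sum_sub_distrib, smul_smul, sub_mul, Finset.sum_smul, sub_smul]
  congr 1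
  · rw [Finset.sum_comm]

theorem val_yZ (P : Place K F) {R : Place K F} (hR : R ≠ C.oo) :
    S27.val R (yZ C c (eP C P)) = ∑ ab : Fin C.r × Fin C.r, c ab * C.pl P R ab.1 ab.2 := by
  have hmem : ∀ ab : Fin C.r × Fin C.r, C.yy P ab.1 ab.2 ∈ R.toValuationSubring := fun ab =>
    (mem_V_iff.mp (C.yy_mem P ab.1 ab.2)).1 R hR
  rw [yZ_eP, val_sum R _ _ (fun ab _ => by
    rw [Algebra.smul_def]
    exact mul_mem (R.algebraMap_mem' _) (hmem ab))]
  refine Finset.sum_congr rfl fun ab _ => ?_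
  rw [val_smul R _ (hmem ab), C.val_yy hR]

theorem val_yZ_self {P : Place K F} (hP : P ≠ C.oo) : S27.val P (yZ C c (eP C P)) = 0 := by
  rw [val_yZ c P hP]
  exact Finset.sum_eq_zero fun ab _ => by rw [C.pl_self, mul_zero]

theorem yZ_eoo_mem : yZ C c (eoo C) ∈ V C.oo (C.κ - 1) := by
  have hκ : C.κ = (C.κ - 1) + 1 := by have := C.hκ; omega
  have h1 : yZ C c (eoo C) ∈ V C.oo ((C.κ - 1) + 1) := by
    rw [← hκ]; exact yZ_mem c _
  apply mem_V_of_top_eq_zero C h1
  rw [← hκ]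
  unfold yZ
  rw [top_sum C _ _ (fun b _ => Submodule.smul_mem _ _ (C.e_mem b))]
  have h2 : ∀ b, top C C.κ (wK C c (eoo C) b • C.e b) =
      ∑ a, (c (a, b) * (eoo C a * eoo C b) - c (b, a) * (eoo C a * eoo C b)) := by
    intro b
    rw [top_smul C _ (C.e_mem b)]
    unfold wK
    rw [Finset.sum_mul]
    refine Finset.sum_congr rfl fun a _ => ?_
    show (c (a, b) - c (b, a)) * eoo C a * eoo C b = _
    ring
  simp only [h2, Finset.sum_sub_distrib]
  rw [sub_eq_zero]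
  rw [Finset.sum_comm]
  refine Finset.sum_congr rfl fun a _ => Finset.sum_congr rfl fun b _ => ?_
  ring

end basic

variable {x' : F} {n' : ℕ} (D : NData C x' n') (c : Fin C.r × Fin C.r → K)

theorem coeff_Nm_yZ_eq (Z : Fin C.r → K) (i : ℕ) :
    (Nm K x' (yZ C c Z)).coeff i = MvPolynomial.eval (wK C c Z) (D.Φ i) :=
  D.spec _ _

theorem Psi_mem (i : ℕ) : Psi C D.Φ c i ∈ V C.oo (C.κ * n') :=
  (top_aeval C (D.hom i) (wF C c) (wF_mem c)).1

theorem val_Psi {P : Place K F} (hP : P ≠ C.oo) (i : ℕ) :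
    S27.val P (Psi C D.Φ c i) = (Nm K x' (yZ C c (eP C P))).coeff i := by
  rw [coeff_Nm_yZ_eq D, Psi, (mem_and_val_aeval P (wF C c)
    (fun b => (mem_V_iff.mp (wF_mem c b)).1 P hP) (D.Φ i)).2]
  congr 2
  funext b
  exact val_wF c hP b

theorem top_Psi (i : ℕ) :
    top C (C.κ * n') (Psi C D.Φ c i) = (Nm K x' (yZ C c (eoo C))).coeff i := by
  rw [coeff_Nm_yZ_eq D, Psi, (top_aeval C (D.hom i) (wF C c) (wF_mem c)).2]
  congr 2
  funext b
  exact top_wF c b

include D in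
theorem coeff_Nm_yZ (Z : Fin C.r → K) {i : ℕ} (hi : C.κ < i) :
    (Nm K x' (yZ C c Z)).coeff i = 0 := by
  by_cases hw : wK C c Z = 0
  · rw [coeff_Nm_yZ_eq D, hw, MvPolynomial.eval_zero, MvPolynomial.constantCoeff_eq]
    apply (D.hom i).coeff_eq_zero
    simpa using D.hn'.ne
  · have hy0 : yZ C c Z ≠ 0 := by
      intro h
      apply hw
      funext b
      exact Fintype.linearIndependent_iff.1 C.he (wK C c Z) h b
    have hmem := mem_V_iff.mp (yZ_mem c Z)
    apply Polynomial.coeff_eq_zero_of_natDegree_lt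
    rw [natDegree_Nm C D.hx' D.hn' D.hd hmem.1 hy0]
    have h1 := hmem.2.resolve_left hy0
    unfold dg
    omega

include D in
theorem natDegree_Nm_yZ_lt (Z : Fin C.r → K) : (Nm K x' (yZ C c Z)).natDegree < C.κ + 1 := by
  rw [Nat.lt_succ_iff, Polynomial.natDegree_le_iff_coeff_eq_zero]
  exact fun N hN => coeff_Nm_yZ D c Z hN

include D in
theorem x'_sub_ne_zero (ξ : K) : x' - algebraMap K F ξ ≠ 0 := by
  intro h
  exact N1.not_mem_range D.hn' D.hd ⟨ξ, (sub_eq_zero.1 h).symm⟩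

include D in
theorem eval_Nm_yZ_self {P : Place K F} (hP : P ≠ C.oo) :
    (Nm K x' (yZ C c (eP C P))).eval (S27.val P x') = 0 := by
  rw [Nm_eval C D.hx' D.hn' D.hd (mem_V_iff.mp (yZ_mem c _)).1, zprod_eq_mul_zprodE hP,
    val_yZ_self c hP]
  have h1 := S27.val_spec P ((S27.adic_le_one_iff_mem P).2 (D.hx' P hP))
  rw [S27.adic_lt_one_iff_ord] at h1
  have h2 := h1.resolve_left (x'_sub_ne_zero D _)
  rw [zero_pow (by omega), zero_mul]

theorem Psi_mem_place {P : Place K F} (hP : P ≠ C.oo) (i : ℕ) :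
    Psi C D.Φ c i ∈ P.toValuationSubring := (mem_V_iff.mp (Psi_mem D c i)).1 P hP

theorem val_Psi_mul_pow {P : Place K F} (hP : P ≠ C.oo) (i k : ℕ) :
    S27.val P (Psi C D.Φ c i * x' ^ k) =
      (Nm K x' (yZ C c (eP C P))).coeff i * S27.val P x' ^ k := by
  have hx := (S27.adic_le_one_iff_mem P).2 (D.hx' P hP)
  rw [S27.val_mul P ((S27.adic_le_one_iff_mem P).2 (Psi_mem_place D c hP i))
    (by rw [map_pow]; exact pow_le_one' hx k), val_Psi D c hP, S27.val_pow P hx]

theorem sum_Psi_mul_pow : ∑ i ∈ Finset.range (C.κ + 1), Psi C D.Φ c i * x' ^ i = 0 := by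
  by_contra hne
  have hfin := S27.finite_zeros (K := K) hne
  have hall : ∀ P : Place K F, P ≠ C.oo →
      P ∈ {v : Place K F | v.adicValuation
        (∑ i ∈ Finset.range (C.κ + 1), Psi C D.Φ c i * x' ^ i) < 1} := by
    intro P hP
    have hmem : ∀ i ∈ Finset.range (C.κ + 1), Psi C D.Φ c i * x' ^ i ∈ P.toValuationSubring :=
      fun i _ => mul_mem (Psi_mem_place D c hP i) (pow_mem (D.hx' P hP) i)
    have h1 : (∑ i ∈ Finset.range (C.κ + 1), Psi C D.Φ c i * x' ^ i) ∈ P.toValuationSubring :=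
      sum_mem hmem
    show P.adicValuation _ < 1
    rw [← S27.val_eq_zero_iff P ((S27.adic_le_one_iff_mem P).2 h1), val_sum P _ _ hmem]
    simp only [val_Psi_mul_pow D c hP]
    rw [← Polynomial.eval_eq_sum_range' (natDegree_Nm_yZ_lt D c _)]
    exact eval_Nm_yZ_self D c hP
  have hinf := S27.infinite_places K F
  have : (Set.univ : Set (Place K F)).Finite := by
    refine (hfin.union (Set.finite_singleton C.oo)).subset ?_
    intro P _
    by_cases hP : P = C.oo
    · right; exact hP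
    · left; exact hall P hP
  exact Set.infinite_univ this

theorem gg_mem_Reg (j : ℕ) : gg C D.Φ x' c j ∈ Reg C.oo :=
  sum_mem fun i _ => mul_mem (mem_Reg_of_mem_V C (Psi_mem D c i)) (pow_mem D.hx' _)

theorem gg_mul_pow {j : ℕ} (hj : j ≤ C.κ) :
    gg C D.Φ x' c j * x' ^ (j + 1) = - ∑ i ∈ Finset.range (j + 1), Psi C D.Φ c i * x' ^ i := by
  have h := sum_split (fun i => Psi C D.Φ c i) x' hj
  rw [sum_Psi_mul_pow D c] at h
  unfold gg
  linear_combination -h

include D in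
theorem x'_ne_zero : x' ≠ 0 := by
  have := x'_sub_ne_zero D 0
  simpa using this

include D in
theorem x'_mem_V : x' ∈ V C.oo n' := mem_V_iff.2 ⟨D.hx', Or.inr (by rw [D.hd])⟩

include D in
theorem x'_pow_mem_V (k : ℕ) : x' ^ k ∈ V C.oo (n' * k) := by
  induction k with
  | zero =>
    rw [pow_zero, mul_zero, mem_V_iff]
    exact ⟨(Reg C.oo).one_mem, Or.inr (by rw [Place.ord_one]; simp)⟩
  | succ k ih =>
    rw [pow_succ, Nat.mul_succ]
    exact mul_mem_V C ih (x'_mem_V D)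

include D in
theorem top_x'_pow (k : ℕ) : top C (n' * k) (x' ^ k) = top C n' x' ^ k := by
  induction k with
  | zero =>
    simp only [pow_zero, mul_zero, top, mul_one]
    exact S27.val_one C.oo
  | succ k ih =>
    rw [pow_succ, Nat.mul_succ, top_mul C (x'_pow_mem_V D k) (x'_mem_V D), ih, pow_succ]

include D in
theorem top_x'_ne_zero : top C n' x' ≠ 0 := top_ne_zero C (x'_ne_zero D) D.hd

theorem Psi_mul_pow_mem (i : ℕ) : Psi C D.Φ c i * x' ^ i ∈ V C.oo (C.κ * n' + n' * i) :=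
  mul_mem_V C (Psi_mem D c i) (x'_pow_mem_V D i)

theorem sum_range_mem (j : ℕ) :
    ∑ i ∈ Finset.range (j + 1), Psi C D.Φ c i * x' ^ i ∈ V C.oo (C.κ * n' + n' * j) := by
  refine Submodule.sum_mem _ fun i hi => ?_
  rw [Finset.mem_range] at hi
  exact V_mono C.oo (Nat.add_le_add_left (Nat.mul_le_mul_left _ (by omega)) _)
    (Psi_mul_pow_mem D c i)

theorem gg_mem {j : ℕ} (hj : j < C.κ) : gg C D.Φ x' c j ∈ V C.oo (n' * (C.κ - 1)) := by
  rw [mem_V_iff]
  refine ⟨gg_mem_Reg D c j, ?_⟩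
  by_cases h0 : gg C D.Φ x' c j = 0
  · exact Or.inl h0
  right
  have hx0 := x'_ne_zero D
  have h1 := gg_mul_pow D c hj.le
  have h2 : gg C D.Φ x' c j * x' ^ (j + 1) ∈ V C.oo (C.κ * n' + n' * j) := by
    rw [h1]
    exact Submodule.neg_mem _ (sum_range_mem D c j)
  have h3 := (mem_V_iff.mp h2).2.resolve_left (mul_ne_zero h0 (pow_ne_zero _ hx0))
  rw [C.oo.ord_mul h0 (pow_ne_zero _ hx0), S24.Place.ord_pow, D.hd] at h3
  have hκ : 1 ≤ C.κ := by omega
  push_cast [Nat.cast_sub hκ] at h3 ⊢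
  linarith

theorem top_gg {j : ℕ} (hj : j < C.κ) :
    top C n' x' * top C (n' * (C.κ - 1)) (gg C D.Φ x' c j) =
      - (Nm K x' (yZ C c (eoo C))).coeff j := by
  have hω := top_x'_ne_zero D
  have hk : n' * (C.κ - 1) + n' * (j + 1) = C.κ * n' + n' * j := by
    obtain ⟨k, hk⟩ : ∃ k, C.κ = k + 1 := ⟨C.κ - 1, by omega⟩
    rw [hk, Nat.add_sub_cancel]
    ring
  have h1 := top_mul C (gg_mem D c hj) (x'_pow_mem_V D (j + 1))
  rw [gg_mul_pow D c hj.le, hk, top_x'_pow D, ← neg_one_smul K,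
    top_smul C _ (sum_range_mem D c j),
    top_sum C _ _ (fun i hi => by
      rw [Finset.mem_range] at hi
      exact V_mono C.oo (Nat.add_le_add_left (Nat.mul_le_mul_left _ (by omega)) _)
        (Psi_mul_pow_mem D c i)),
    Finset.sum_range_succ, Finset.sum_eq_zero (fun i hi => by
      rw [Finset.mem_range] at hi
      exact top_eq_zero_of_lt C (Psi_mul_pow_mem D c i)
        (Nat.add_lt_add_left (Nat.mul_lt_mul_of_pos_left hi D.hn') _)),
    zero_add, top_mul C (Psi_mem D c j) (x'_pow_mem_V D j), top_Psi D, top_x'_pow D] at h1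
  apply mul_left_cancel₀ (pow_ne_zero j hω)
  rw [pow_succ] at h1
  linear_combination -h1

theorem val_gg {P : Place K F} (hP : P ≠ C.oo) (j : ℕ) :
    S27.val P (gg C D.Φ x' c j) =
      ∑ i ∈ Finset.Ioc j C.κ, (Nm K x' (yZ C c (eP C P))).coeff i * S27.val P x' ^ (i - j - 1) := by
  unfold gg
  rw [val_sum P _ _ (fun i _ => mul_mem (Psi_mem_place D c hP i) (pow_mem (D.hx' P hP) _))]
  exact Finset.sum_congr rfl fun i _ => val_Psi_mul_pow D c hP i _

theorem Nm_yZ_eq {P : Place K F} (hP : P ≠ C.oo) :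
    Nm K x' (yZ C c (eP C P)) =
      (X - Polynomial.C (S27.val P x')) *
        ∑ j ∈ Finset.range C.κ, Polynomial.C (S27.val P (gg C D.Φ x' c j)) * X ^ j := by
  have h := synth_div (fun i => (Nm K x' (yZ C c (eP C P))).coeff i) (S27.val P x') C.κ
  rw [← Polynomial.eval_eq_sum_range' (natDegree_Nm_yZ_lt D c _), eval_Nm_yZ_self D c hP, map_zero,
    add_zero] at h
  simp only [← val_gg D c hP] at h
  rw [← h]
  conv_lhs => rw [Polynomial.as_sum_range' _ _ (natDegree_Nm_yZ_lt D c (eP C P))]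
  exact Finset.sum_congr rfl fun i _ => (Polynomial.C_mul_X_pow_eq_monomial).symm

/-- polynomiality in `c`. -/
theorem isPolyC_val_gg {P : Place K F} (hP : P ≠ C.oo) (j : ℕ) :
    IsPolyC n' (fun c => S27.val P (gg C D.Φ x' c j)) := by
  have h : (fun c => S27.val P (gg C D.Φ x' c j)) = fun c =>
      ∑ i ∈ Finset.Ioc j C.κ, MvPolynomial.eval (wK C c (eP C P)) (D.Φ i) *
        S27.val P x' ^ (i - j - 1) := by
    funext c
    rw [val_gg D c hP]
    exact Finset.sum_congr rfl fun i _ => by rw [coeff_Nm_yZ_eq D]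
  rw [h]
  exact IsPolyC.sum _ fun i _ => (isPolyC_eval_wK C (D.hom i) _).mul_const _

theorem isPolyC_top_gg {j : ℕ} (hj : j < C.κ) :
    IsPolyC n' (fun c => top C (n' * (C.κ - 1)) (gg C D.Φ x' c j)) := by
  have hω := top_x'_ne_zero D
  have h : (fun c => top C (n' * (C.κ - 1)) (gg C D.Φ x' c j)) = fun c =>
      (top C n' x')⁻¹ * - MvPolynomial.eval (wK C c (eoo C)) (D.Φ j) := by
    funext c
    rw [← coeff_Nm_yZ_eq D, ← top_gg D c hj, ← mul_assoc, inv_mul_cancel₀ hω, one_mul]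
  rw [h]
  exact ((isPolyC_eval_wK C (D.hom j) _).neg).const_mul _

end Fermat.Agent.S17.El.XX
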