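import Fermat.Agent.S17.El.X.Defs

/-!
# S17/El/X: evaluation of polynomial expressions at a place; the calculus of `top`   (WP EL-XA)

Everything is elementary from `S27.val_add/val_mul/val_algebraMap/val_eq_zero_iff/val_inv`,
`S27.adic_le_one_iff_mem`, `riemannRochSpace` (`f ∈ L(D) ↔ ∀ v, adic_v f ≤ exp (D v)`, by `Iff.rfl`),
`adic_oo t = exp (-1)` (from `C.ht`; `Place.ord = - log adic`), `mem_V_iff`.
* `mem_and_val_aeval`: `MvPolynomial.induction_on`.
* `aeval_mul_of_isHomogeneous`: copy of `eval_smul_of_isHomogeneous` (`El/ThmM.lean`).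
* `top_aeval`: `aeval f p * t^(k d) = aeval (f t^k) p`, then `mem_and_val_aeval` at `oo`; regularity at the
  affine places: `mem_and_val_aeval` again.
-/

set_option autoImplicit false

open AlgebraicCurve

namespace Fermat.Agent.S17.El.XX

variable {K F : Type*} [Field K] [Field F] [Algebra K F] [IsAlgClosed K] [CharZero K]
  [S27.IsFF K F]

theorem mem_and_val_aeval (P : Place K F) {σ : Type*} (f : σ → F)
    (hf : ∀ b, f b ∈ P.toValuationSubring) (p : MvPolynomial σ K) :
    MvPolynomial.aeval f p ∈ P.toValuationSubring ∧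
      S27.val P (MvPolynomial.aeval f p) = MvPolynomial.eval (fun b => S27.val P (f b)) p := by
  induction p using MvPolynomial.induction_on with
  | C a =>
    rw [MvPolynomial.aeval_C, MvPolynomial.eval_C]
    exact ⟨P.algebraMap_mem' a, S27.val_algebraMap P a⟩
  | add p q hp hq =>
    rw [map_add, map_add]
    refine ⟨add_mem hp.1 hq.1, ?_⟩
    rw [S27.val_add P ((S27.adic_le_one_iff_mem P).2 hp.1) ((S27.adic_le_one_iff_mem P).2 hq.1),
      hp.2, hq.2]
  | mul_X p i hp =>
    rw [map_mul, map_mul, MvPolynomial.aeval_X, MvPolynomial.eval_X]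
    refine ⟨mul_mem hp.1 (hf i), ?_⟩
    rw [S27.val_mul P ((S27.adic_le_one_iff_mem P).2 hp.1) ((S27.adic_le_one_iff_mem P).2 (hf i)),
      hp.2]

omit [IsAlgClosed K] [CharZero K] [S27.IsFF K F] in
theorem TopAux.val_zero' (P : Place K F) : S27.val P (0 : F) = 0 := by
  have := S27.val_algebraMap P (0 : K)
  rwa [map_zero] at this

theorem val_sum (P : Place K F) {ι : Type*} (s : Finset ι) (f : ι → F)
    (hf : ∀ i ∈ s, f i ∈ P.toValuationSubring) :
    S27.val P (∑ i ∈ s, f i) = ∑ i ∈ s, S27.val P (f i) := by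
  classical
  induction s using Finset.induction_on with
  | empty => simpa using TopAux.val_zero' P
  | insert a s ha ih =>
    have h1 : f a ∈ P.toValuationSubring := hf a (Finset.mem_insert_self a s)
    have h2 : ∑ i ∈ s, f i ∈ P.toValuationSubring :=
      sum_mem fun i hi => hf i (Finset.mem_insert_of_mem hi)
    rw [Finset.sum_insert ha, Finset.sum_insert ha,
      S27.val_add P ((S27.adic_le_one_iff_mem P).2 h1) ((S27.adic_le_one_iff_mem P).2 h2),
      ih fun i hi => hf i (Finset.mem_insert_of_mem hi)]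

theorem val_smul (P : Place K F) (a : K) {f : F} (hf : f ∈ P.toValuationSubring) :
    S27.val P (a • f) = a * S27.val P f := by
  rw [Algebra.smul_def, S27.val_mul P (P.adicValuation_algebraMap_le_one _)
    ((S27.adic_le_one_iff_mem P).2 hf), S27.val_algebraMap]

omit [IsAlgClosed K] [CharZero K] [S27.IsFF K F] in
theorem aeval_mul_of_isHomogeneous {σ : Type*} {p : MvPolynomial σ K} {d : ℕ}
    (hp : p.IsHomogeneous d) (s : F) (f : σ → F) :
    MvPolynomial.aeval (fun b => f b * s) p = MvPolynomial.aeval f p * s ^ d := by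
  rw [MvPolynomial.aeval_def, MvPolynomial.aeval_def, MvPolynomial.eval₂_eq, MvPolynomial.eval₂_eq,
    Finset.sum_mul]
  refine Finset.sum_congr rfl fun m hm => ?_
  have hdeg : ∑ i ∈ m.support, m i = d := by
    have := hp (MvPolynomial.mem_support_iff.1 hm)
    rw [Finsupp.weight_apply] at this
    simpa [Finsupp.sum] using this
  simp only [mul_pow, Finset.prod_mul_distrib, Finset.prod_pow_eq_pow_sum, hdeg]
  ring

omit [IsAlgClosed K] [CharZero K] [S27.IsFF K F] in
theorem TopAux.adic_eq_one_of_ord_eq_zero (P : Place K F) {δ : F} (hδ : δ ≠ 0) (hord : P.ord δ = 0) :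
    P.adicValuation δ = 1 := by
  rw [P.adicValuation_eq_exp_neg_ord hδ, hord]
  simp

theorem val_ne_zero_of_ord_eq_zero (P : Place K F) {δ : F} (hδ : δ ≠ 0) (hord : P.ord δ = 0) :
    S27.val P δ ≠ 0 := by
  have h1 := TopAux.adic_eq_one_of_ord_eq_zero P hδ hord
  intro h
  have := (S27.val_eq_zero_iff P h1.le).1 h
  rw [h1] at this
  exact lt_irrefl _ this

/-- quotient by a function which is a unit at `P`. -/
theorem val_div_of_ord_eq_zero (P : Place K F) {f δ : F} (hf : f ∈ P.toValuationSubring)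
    (hδ : δ ≠ 0) (hord : P.ord δ = 0) : S27.val P (f / δ) = S27.val P f / S27.val P δ := by
  have h1 := TopAux.adic_eq_one_of_ord_eq_zero P hδ hord
  have h2 : P.adicValuation δ⁻¹ ≤ 1 := by rw [map_inv₀, h1, inv_one]
  rw [div_eq_mul_inv, S27.val_mul P ((S27.adic_le_one_iff_mem P).2 hf) h2, S27.val_inv P h1,
    div_eq_mul_inv]

variable (C : Cv K F)

omit [IsAlgClosed K] [CharZero K] [S27.IsFF K F] in
theorem TopAux.t_ne_zero : C.t ≠ 0 := by
  intro h
  have := C.ht
  rw [h, Place.ord_zero] at this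
  exact zero_ne_one this

omit [IsAlgClosed K] [CharZero K] [S27.IsFF K F] in
theorem TopAux.adic_t_pow (k : ℕ) : C.oo.adicValuation (C.t ^ k) = WithZero.exp (-(k : ℤ)) := by
  rw [map_pow, C.oo.adicValuation_eq_exp_neg_ord (TopAux.t_ne_zero C), C.ht, ← WithZero.exp_nsmul]
  congr 1
  simp

omit [IsAlgClosed K] [CharZero K] [S27.IsFF K F] in
theorem TopAux.adic_mul_pow_le_one_iff (k : ℕ) (f : F) :
    C.oo.adicValuation (f * C.t ^ k) ≤ 1 ↔ C.oo.adicValuation f ≤ WithZero.exp (k : ℤ) := by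
  rw [map_mul, TopAux.adic_t_pow, WithZero.exp_neg, mul_inv_le_iff₀ (WithZero.exp_pos), one_mul]

omit [IsAlgClosed K] [CharZero K] [S27.IsFF K F] in
theorem TopAux.mem_V_iff_adic {k : ℕ} {f : F} :
    f ∈ V C.oo k ↔ f ∈ Reg C.oo ∧ C.oo.adicValuation f ≤ WithZero.exp (k : ℤ) := by
  rw [mem_V_iff, C.oo.adicValuation_le_exp_iff]

theorem mul_pow_mem {k : ℕ} {f : F} (hf : f ∈ V C.oo k) :
    f * C.t ^ k ∈ C.oo.toValuationSubring := by
  rw [← S27.adic_le_one_iff_mem, TopAux.adic_mul_pow_le_one_iff]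
  exact ((TopAux.mem_V_iff_adic C).1 hf).2

theorem mem_V_of_mul_pow_mem {k : ℕ} {f : F} (hf : f ∈ Reg C.oo)
    (h : f * C.t ^ k ∈ C.oo.toValuationSubring) : f ∈ V C.oo k := by
  rw [← S27.adic_le_one_iff_mem, TopAux.adic_mul_pow_le_one_iff] at h
  exact (TopAux.mem_V_iff_adic C).2 ⟨hf, h⟩

theorem mem_Reg_of_mem_V {k : ℕ} {f : F} (hf : f ∈ V C.oo k) : f ∈ Reg C.oo :=
  ((TopAux.mem_V_iff_adic C).1 hf).1

theorem mul_mem_V {k l : ℕ} {f g : F} (hf : f ∈ V C.oo k) (hg : g ∈ V C.oo l) :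
    f * g ∈ V C.oo (k + l) := by
  refine mem_V_of_mul_pow_mem C (mul_mem (mem_Reg_of_mem_V C hf) (mem_Reg_of_mem_V C hg)) ?_
  have : f * g * C.t ^ (k + l) = (f * C.t ^ k) * (g * C.t ^ l) := by rw [pow_add]; ring
  rw [this]
  exact mul_mem (mul_pow_mem C hf) (mul_pow_mem C hg)

theorem top_add {k : ℕ} {f g : F} (hf : f ∈ V C.oo k) (hg : g ∈ V C.oo k) :
    top C k (f + g) = top C k f + top C k g := by
  unfold top
  rw [add_mul, S27.val_add _ ((S27.adic_le_one_iff_mem _).2 (mul_pow_mem C hf))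
    ((S27.adic_le_one_iff_mem _).2 (mul_pow_mem C hg))]

theorem top_smul {k : ℕ} (a : K) {f : F} (hf : f ∈ V C.oo k) :
    top C k (a • f) = a * top C k f := by
  unfold top
  rw [smul_mul_assoc, val_smul _ _ (mul_pow_mem C hf)]

theorem top_sum {k : ℕ} {ι : Type*} (s : Finset ι) (f : ι → F) (hf : ∀ i ∈ s, f i ∈ V C.oo k) :
    top C k (∑ i ∈ s, f i) = ∑ i ∈ s, top C k (f i) := by
  unfold top
  rw [Finset.sum_mul, val_sum _ _ _ fun i hi => mul_pow_mem C (hf i hi)]

theorem top_mul {k l : ℕ} {f g : F} (hf : f ∈ V C.oo k) (hg : g ∈ V C.oo l) :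
    top C (k + l) (f * g) = top C k f * top C l g := by
  unfold top
  have : f * g * C.t ^ (k + l) = (f * C.t ^ k) * (g * C.t ^ l) := by rw [pow_add]; ring
  rw [this, S27.val_mul _ ((S27.adic_le_one_iff_mem _).2 (mul_pow_mem C hf))
    ((S27.adic_le_one_iff_mem _).2 (mul_pow_mem C hg))]

theorem top_eq_zero_of_lt {k l : ℕ} {f : F} (hf : f ∈ V C.oo k) (h : k < l) : top C l f = 0 := by
  unfold top
  have h1 : C.oo.adicValuation (f * C.t ^ l) < 1 := by
    obtain ⟨d, rfl⟩ : ∃ d, l = k + (d + 1) := ⟨l - k - 1, by omega⟩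
    have e : f * C.t ^ (k + (d + 1)) = (f * C.t ^ k) * C.t ^ (d + 1) := by rw [pow_add]; ring
    rw [e, map_mul, TopAux.adic_t_pow]
    refine lt_of_le_of_lt (mul_le_of_le_one_left' ((S27.adic_le_one_iff_mem _).2
      (mul_pow_mem C hf))) ?_
    rw [← WithZero.exp_zero, WithZero.exp_lt_exp]
    push_cast
    omega
  exact (S27.val_eq_zero_iff _ h1.le).2 h1

theorem top_ne_zero {k : ℕ} {f : F} (hf : f ≠ 0) (hord : C.oo.ord f = -(k : ℤ)) :
    top C k f ≠ 0 := by
  unfold top
  have h1 : C.oo.adicValuation (f * C.t ^ k) = 1 := by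
    rw [map_mul, TopAux.adic_t_pow, C.oo.adicValuation_eq_exp_neg_ord hf, hord, ← WithZero.exp_add]
    simp
  intro h
  have := (S27.val_eq_zero_iff _ h1.le).1 h
  rw [h1] at this
  exact lt_irrefl _ this

/-- `f ∈ L((k+1)·oo)` with vanishing leading coefficient lies in `L(k·oo)`. -/
theorem mem_V_of_top_eq_zero {k : ℕ} {f : F} (hf : f ∈ V C.oo (k + 1)) (h : top C (k + 1) f = 0) :
    f ∈ V C.oo k := by
  unfold top at h
  have h1 := (S27.val_eq_zero_iff _ ((S27.adic_le_one_iff_mem _).2 (mul_pow_mem C hf))).1 h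
  rw [S27.adic_lt_one_iff] at h1
  refine (TopAux.mem_V_iff_adic C).2 ⟨mem_Reg_of_mem_V C hf, ?_⟩
  rw [map_mul, TopAux.adic_t_pow, WithZero.exp_neg, mul_inv_le_iff₀ (WithZero.exp_pos),
    ← WithZero.exp_add] at h1
  refine h1.trans (le_of_eq ?_)
  congr 1
  push_cast
  ring

theorem top_aeval {σ : Type*} {p : MvPolynomial σ K} {d : ℕ} (hp : p.IsHomogeneous d) {k : ℕ}
    (f : σ → F) (hf : ∀ b, f b ∈ V C.oo k) :
    MvPolynomial.aeval f p ∈ V C.oo (k * d) ∧
      top C (k * d) (MvPolynomial.aeval f p) = MvPolynomial.eval (fun b => top C k (f b)) p := by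
  have e : MvPolynomial.aeval f p * C.t ^ (k * d) =
      MvPolynomial.aeval (fun b => f b * C.t ^ k) p := by
    rw [aeval_mul_of_isHomogeneous hp, pow_mul]
  have h := mem_and_val_aeval C.oo (fun b => f b * C.t ^ k) (fun b => mul_pow_mem C (hf b)) p
  refine ⟨mem_V_of_mul_pow_mem C ?_ (by rw [e]; exact h.1), ?_⟩
  · intro P hP
    exact (mem_and_val_aeval P f (fun b => mem_Reg_of_mem_V C (hf b) P hP) p).1
  · unfold top
    rw [e]
    exact h.2

/-- normalised evaluation at `oo`. -/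
theorem val_div_oo {k : ℕ} {f δ : F} (hf : f ∈ V C.oo k) (hδ : δ ≠ 0)
    (hord : C.oo.ord δ = -(k : ℤ)) : S27.val C.oo (f / δ) = top C k f / top C k δ := by
  unfold top
  have ht := pow_ne_zero k (TopAux.t_ne_zero C)
  have e : f / δ = (f * C.t ^ k) / (δ * C.t ^ k) := by
    rw [mul_div_mul_right _ _ ht]
  have h0 : δ * C.t ^ k ≠ 0 := mul_ne_zero hδ ht
  have hord' : C.oo.ord (δ * C.t ^ k) = 0 := by
    have h1 : C.oo.ord (C.t ^ k) = k := by
      have := C.oo.ord_zpow C.t (k : ℤ)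
      rw [zpow_natCast, C.ht, mul_one] at this
      exact this
    rw [C.oo.ord_mul hδ ht, hord, h1]
    ring
  rw [e, val_div_of_ord_eq_zero _ (mul_pow_mem C hf) h0 hord']

/-- a spanning family of `L(G)`, `deg G ≥ 2g`, is base point free.
(`exists_section` with `S = {P}`; if no `φ i` had exact order `-G P` all of them, hence their span, would lie in
`L(G - P)`.) -/
theorem exists_ord_eq_of_span {ι : Type*} (φ : ι → F) (G : Divisor K F)
    (hspan : Submodule.span K (Set.range φ) = riemannRochSpace G)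
    (hG : 2 * (genusFF K F : ℤ) ≤ Divisor.degree G) (P : Place K F) :
    ∃ i, φ i ≠ 0 ∧ P.ord (φ i) = - G P := by
  classical
  by_contra hcon
  push Not at hcon
  obtain ⟨f, hfG, hf0, hfP⟩ := exists_section G hG {P}
  have hfP' := hfP P (Finset.mem_singleton_self P)
  have hφG : ∀ i, φ i ∈ riemannRochSpace G := fun i => by
    rw [← hspan]
    exact Submodule.subset_span ⟨i, rfl⟩
  have hle : Submodule.span K (Set.range φ) ≤ riemannRochSpace (G - Finsupp.single P 1) := by
    rw [Submodule.span_le]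
    rintro _ ⟨i, rfl⟩
    change φ i ∈ riemannRochSpace (G - Finsupp.single P 1)
    rw [mem_riemannRochSpace_iff]
    intro w
    by_cases h0 : φ i = 0
    · exact Or.inl h0
    right
    have h1 := ((mem_riemannRochSpace_iff.1 (hφG i)) w).resolve_left h0
    by_cases hw : w = P
    · subst hw
      have h2 := hcon i h0
      rw [Finsupp.sub_apply, Finsupp.single_eq_same]
      omega
    · rw [Finsupp.sub_apply, Finsupp.single_eq_of_ne hw]
      omega
  have hf' : f ∈ riemannRochSpace (G - Finsupp.single P 1) := hle (by rw [hspan]; exact hfG)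
  have h3 := ((mem_riemannRochSpace_iff.1 hf') P).resolve_left hf0
  rw [Finsupp.sub_apply, Finsupp.single_eq_same] at h3
  omega

end Fermat.Agent.S17.El.XX
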